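/-
P-CFT / RECIP-Q row 999 (helper50): `SplitCyclicStatement` of helper25's interface from the
inflation-restriction statement `SplitInflStatement` of helper97 ([HS-A]), through helper97's
cyclic normal form `cyclicNormalForm_of`.
-/
import Fermat.Agent.H25.Recip.Interfaces
import Fermat.Agent.H97.Hasse.NormalForm
import Fermat.Agent.H2.Hasse.SplitInfl

set_option autoImplicit false

namespace Fermat.Agent.H50

open Fermat.Agent.H13.Cft Fermat.Agent.H78.CFT Fermat.Agent.H61.CFT

set_option maxHeartbeats 1000000 in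
set_option synthInstance.maxHeartbeats 400000 in
/-- **[RQ-SPLIT]** from **[HS-A]**: a level 2-cocycle of `G_E` dying on `G_F`, `F / E` finite
cyclic with generator `σ`, is level-cohomologous to `inflE E F (stdCocycle σ a)`, `a ∈ Eˣ`. -/
theorem splitCyclic_of_splitInfl (hA : Fermat.Agent.H97.Hasse.SplitInflStatement) :
    Fermat.Agent.H25.Recip.SplitCyclicStatement := by
  intro E F _ _ σ hσ c hlvl hcoc F₁ h hF₁ hsplit
  subst hF₁
  have hg : IsGen σ := isGen_of_forall_mem_zpowers hσ
  obtain ⟨a, ha⟩ := Fermat.Agent.H97.Hasse.cyclicNormalForm_of hA E F σ hg c ⟨hlvl, hcoc⟩ hsplit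
  exact ⟨a, ha⟩

/-- **[RQ-SPLIT]**, unconditional (helper2's `splitInfl`). -/
theorem splitCyclic : Fermat.Agent.H25.Recip.SplitCyclicStatement :=
  splitCyclic_of_splitInfl Fermat.Agent.H2.splitInfl

end Fermat.Agent.H50
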